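import Fermat.Agent.H29.Bridge
import Fermat.Agent.H27.HauptEx

/-!
# Generalities
-/

set_option autoImplicit false
set_option linter.all false
set_option maxHeartbeats 400000

noncomputable section

namespace Fermat.Agent.H29K

section Abs

open Polynomial

variable {A L F S k κ : Type*} [CommRing A] [IsDomain A] [ValuationRing A] [Field L] [Algebra A L]
  [IsFractionRing A L] [Field F] [Algebra L F] [CommRing S] [Algebra A S] [Algebra S F]
  [FaithfulSMul S F] [Field k] [Field κ] [Algebra k κ]
  {π : A →+* k} {ρ : S →+* κ} {t : S} {ι : Type*} [Fintype ι] {r : ι → S}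

theorem exists_coeff_S (h : H29.IsGauss (L := L) (F := F) π ρ t r) (s : S) :
    ∃ (D : A[X]) (P : ι → A[X]), D.map π ≠ 0 ∧ aeval t D * s = ∑ i, aeval t (P i) * r i ∧
      (ρ s = 0 → ∀ i, (P i).map π = 0) := by
  obtain ⟨D, P, hD, hDP⟩ := h.exists_coeff (algebraMap S F s) (H29.algebraMap_mem_valRing _ s)
  have hrel : aeval t D * s = ∑ i, aeval t (P i) * r i := by
    apply FaithfulSMul.algebraMap_injective S F
    rw [map_mul, map_sum]
    simp only [map_mul]
    exact hDP
  refine ⟨D, P, ?_, hrel, fun h0 => ?_⟩
  · intro h2
    apply hD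
    rw [h.rho_aeval, h2, map_zero]
  · have h1 := congrArg ρ hrel
    rw [map_mul, h0, mul_zero, map_sum] at h1
    simp only [map_mul, h.rho_aeval] at h1
    exact h.indep (fun i => (P i).map π) h1.symm

end Abs

theorem adjoin_eq_top {k L : Type*} [Field k] [Field L] [Algebra k L] (S : Set L)
    (T : Set (IntermediateField.adjoin k S))
    (hT : ∀ x (hx : x ∈ S), (⟨x, IntermediateField.subset_adjoin k S hx⟩ :
      IntermediateField.adjoin k S) ∈ T) :
    IntermediateField.adjoin k T = ⊤ := by
  have h1 : IntermediateField.lift (IntermediateField.adjoin k T) =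
      IntermediateField.adjoin k S := by
    apply le_antisymm (IntermediateField.lift_le _)
    rw [IntermediateField.adjoin_le_iff]
    intro x hx
    exact (IntermediateField.mem_lift (⟨x, IntermediateField.subset_adjoin k S hx⟩ :
      IntermediateField.adjoin k S)).mpr (IntermediateField.subset_adjoin _ _ (hT x hx))
  have h2 : IntermediateField.lift (⊤ : IntermediateField k (IntermediateField.adjoin k S)) =
      IntermediateField.adjoin k S := IntermediateField.lift_top _ _
  exact IntermediateField.lift_injective _ (h1.trans h2.symm)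


end Fermat.Agent.H29K
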