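import Fermat.Agent.H29K.Scale
import Fermat.Agent.H11J.Iface

/-!
# Diamond operators and primitive functions
-/

set_option autoImplicit false
set_option linter.all false
set_option maxHeartbeats 400000

noncomputable section

open UpperHalfPlane hiding I
open ModularForm EisensteinSeries Filter Complex Topology Function CongruenceSubgroup
open scoped MatrixGroups Manifold Real Polynomial IntermediateField
open IsLocalRing (residue ResidueField residue_eq_zero_iff mem_maximalIdeal residue_surjective)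

namespace Fermat.Agent.H29K

open Fermat.Agent.H02
open Fermat.Agent.H18J
open Fermat.Agent.Q (intL mem_intL redL redL_coeff redL_eq_zero_iff C_mem_intL redL_C)
open Fermat.Agent.H22 (GamH)
open Fermat.Agent.H18 (theta)
open Fermat.Agent.Igusa (IsExp)
open ModularCurve (coeffMap qExpand jqModC coeffMap_qExpand)

section Dia

variable {K : Type*} [Field K] [Algebra K ℂ] [IsAlgClosed K] {N : ℕ} [NeZero N]
  {H : Subgroup (ZMod N)ˣ}

theorem exists_exp_tr (g : Gamma0 N) {f : ℍ → ℂ} (hf : f ∈ modAlg (GamH N H))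
    {F : LaurentSeries K} (hF : IsExp 1 f (theta K F)) :
    ∃ F' : LaurentSeries K, IsExp 1 (tr (g : SL(2, ℤ)) f) (theta K F') := by
  have h1 : f ∈ bigAlg K N := mem_bigAlg_of_ringS (Γ := GamH N H) hf hF
  have h2 := tr_mem_modAlg_GamH g hf
  obtain ⟨F', hF', -⟩ := exists_ringS (a := (⟨_, tr_mem h1 g⟩ : bigAlg K N))
    (h2.2 _ (IsLevel.T_mem N))
  exact ⟨F', hF'⟩

/-- Over an algebraically closed field both definitions of the diamond operators agree. -/
theorem dia_eq_diaA (g : Gamma0 N) (x : FK K (GamH N H)) : dia K H g x = diaA g x := by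
  obtain ⟨x, hx⟩ := x
  obtain ⟨F, ⟨f, hf, hF⟩, G, ⟨f', hf', hG⟩, rfl⟩ := mem_FK_iff.mp hx
  have h1 : (⟨F / G, hx⟩ : FK K (GamH N H)) = (⟨F, mem_FK_of_mem ⟨f, hf, hF⟩⟩ :
    FK K (GamH N H)) / ⟨G, mem_FK_of_mem ⟨f', hf', hG⟩⟩ := rfl
  obtain ⟨F', hF'⟩ := exists_exp_tr g hf hF
  obtain ⟨G', hG'⟩ := exists_exp_tr g hf' hG
  rw [h1, map_div₀, map_div₀, dia_of_ringS g hf hF hF', dia_of_ringS g hf' hG hG',
    diaA_of_ringS g hf hF hF', diaA_of_ringS g hf' hG hG']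

theorem embF_dia (g : Gamma0 N) (x : FK K (GamH N H)) :
    embF K N (GamH N H) (dia K H g x) = rho K N (g : SL(2, ℤ))⁻¹ (embF K N (GamH N H) x) := by
  rw [dia_eq_diaA, embF_diaA]

end Dia

section Prim

theorem field_id {F : Type*} [Field F] {m : ℕ} (P Q a u v : F) (hQ : Q ≠ 0)
    (h : a ^ (m + 1) = u * v ^ m) : u * P * (v * Q) ^ m = P / Q * (a * Q) ^ (m + 1) := by
  rw [mul_pow, mul_pow, h, pow_succ Q m]
  field_simp

variable [Algebra (AlgebraicClosure ℚ) ℂ] {N : ℕ} [NeZero N] (H : Subgroup (ZMod N)ˣ)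
  {A : ValuationSubring (AlgebraicClosure ℚ)}

/-- elements coming from `intB` with nonzero reduction -/
theorem prim_of_jB {x : FK (AlgebraicClosure ℚ) (GamH N H)} {b : intB A N}
    (hx : jB A N b = embF (AlgebraicClosure ℚ) N (GamH N H) x) (hb : thB A N b ≠ 0) :
    H11J.Prim A (x : LaurentSeries (AlgebraicClosure ℚ)) := by
  let x' : SB A N (GamH N H) := ⟨x, b, hx⟩
  refine ⟨coe_mem_intL x', fun h0 => hb ?_⟩
  have h1 : toB A N (GamH N H) x' = b := toB_eq hx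
  rw [← h1]
  exact rhoS_eq_zero.mp h0

theorem primFK {ℓ : ℕ} (hℓ : ℓ.Prime) (hA : A.LiesOverPrime ℓ) (hN : ¬ ℓ ∣ N) {m : ℕ}
    (hm : m ≠ 0) : H11J.PrimFK H A m := by
  haveI := H08.mulArchimedean_valueGroup (A := A) hℓ hA
  have hNk := H27.natCast_residue_ne_zero hℓ hA hN
  have hU : ∀ (b : intB A N) (γ : SL(2, ℤ)), thB A N b = 0 → thB A N (γ • b) = 0 :=
    fun b γ h => (thB_smul_eq_zero hℓ hA hNk b γ).mpr h
  rintro ⟨x, hx⟩ hx0
  obtain ⟨F, ⟨f, hf, hF⟩, G, ⟨f', hf', hG⟩, rfl⟩ := mem_FK_iff.mp hx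
  set P : FK (AlgebraicClosure ℚ) (GamH N H) := ⟨F, mem_FK_of_mem ⟨f, hf, hF⟩⟩ with hP
  set Q : FK (AlgebraicClosure ℚ) (GamH N H) := ⟨G, mem_FK_of_mem ⟨f', hf', hG⟩⟩ with hQ
  have h1 : (⟨F / G, hx⟩ : FK (AlgebraicClosure ℚ) (GamH N H)) = P / Q := rfl
  rw [h1] at hx0 ⊢
  have hP0 : P ≠ 0 := fun h => hx0 (by rw [h, zero_div])
  have hQ0 : Q ≠ 0 := fun h => hx0 (by rw [h, div_zero])
  have eP : embF (AlgebraicClosure ℚ) N (GamH N H) P = algebraMap (bigAlg _ N) (MF _ N) ⟨f, _⟩ :=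
    embF_of_ringS hf hF
  have eQ : embF (AlgebraicClosure ℚ) N (GamH N H) Q = algebraMap (bigAlg _ N) (MF _ N) ⟨f', _⟩ :=
    embF_of_ringS hf' hG
  have hf0 : (⟨f, mem_bigAlg_of_ringS (N := N) hf hF⟩ : bigAlg (AlgebraicClosure ℚ) N) ≠ 0 := by
    intro h
    rw [h, map_zero, map_eq_zero] at eP
    exact hP0 eP
  have hf0' : (⟨f', mem_bigAlg_of_ringS (N := N) hf' hG⟩ : bigAlg (AlgebraicClosure ℚ) N) ≠ 0 := by
    intro h
    rw [h, map_zero, map_eq_zero] at eQ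
    exact hQ0 eQ
  obtain ⟨c, b, hc, hb, hb0⟩ := exists_scaleB hU _ hf0
  obtain ⟨c', b', hc', hb', hb0'⟩ := exists_scaleB hU _ hf0'
  obtain ⟨e, he⟩ := IsAlgClosed.exists_pow_nat_eq (c / c') (Nat.pos_of_ne_zero hm)
  have he0 : e ≠ 0 := by
    rintro rfl
    rw [zero_pow hm] at he
    exact div_ne_zero hc hc' he.symm
  have hjb : jB A N b = embF (AlgebraicClosure ℚ) N (GamH N H)
      (algebraMap (AlgebraicClosure ℚ) _ c * P) := by
    rw [jB_apply, hb, map_mul, map_mul, eP, AlgHom.commutes, ← IsScalarTower.algebraMap_apply]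
  have hjb' : jB A N b' = embF (AlgebraicClosure ℚ) N (GamH N H)
      (algebraMap (AlgebraicClosure ℚ) _ c' * Q) := by
    rw [jB_apply, hb', map_mul, map_mul, eQ, AlgHom.commutes, ← IsScalarTower.algebraMap_apply]
  refine ⟨algebraMap (AlgebraicClosure ℚ) _ (e * c') * Q, mul_ne_zero ?_ hQ0, fun g => ?_⟩
  · rw [Ne, map_eq_zero]
    exact mul_ne_zero he0 hc'
  obtain ⟨m, rfl⟩ := Nat.exists_eq_succ_of_ne_zero hm
  have hprod : jB A N (b * b' ^ m) = embF (AlgebraicClosure ℚ) N (GamH N H)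
      (P / Q * (algebraMap (AlgebraicClosure ℚ) _ (e * c') * Q) ^ (m + 1)) := by
    rw [map_mul, map_pow, hjb, hjb', ← map_pow, ← map_mul]
    congr 1
    have h2 : algebraMap (AlgebraicClosure ℚ) (FK (AlgebraicClosure ℚ) (GamH N H)) (e * c') ^ (m + 1)
        = algebraMap (AlgebraicClosure ℚ) _ c * algebraMap (AlgebraicClosure ℚ) _ c' ^ m := by
      rw [← map_pow, mul_pow, he, ← map_pow, ← map_mul, pow_succ]
      congr 1
      field_simp
    exact field_id P Q _ _ _ hQ0 h2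
  have hdia : jB A N ((g : SL(2, ℤ))⁻¹ • (b * b' ^ m)) = embF (AlgebraicClosure ℚ) N (GamH N H)
      (dia (AlgebraicClosure ℚ) H g
        (P / Q * (algebraMap (AlgebraicClosure ℚ) _ (e * c') * Q) ^ (m + 1))) := by
    rw [embF_dia, ← hprod, rho_jB]
  refine prim_of_jB H hdia ?_
  rw [Ne, thB_smul_eq_zero hℓ hA hNk, map_mul, map_pow]
  exact mul_ne_zero hb0 (pow_ne_zero _ hb0')

end Prim

end Fermat.Agent.H29K
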