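import Fermat.Agent.H29K.Stab
import Fermat.Agent.H18J.Diam3

/-!
# Functions for `Γ` all of whose conjugates are holomorphic on `ℍ` with `A`-integral expansions
-/

set_option autoImplicit false
set_option linter.all false
set_option maxHeartbeats 400000

noncomputable section

open UpperHalfPlane hiding I
open ModularForm EisensteinSeries Filter Complex Topology Function CongruenceSubgroup
open scoped MatrixGroups Manifold Real Polynomial IntermediateField
open IsLocalRing (residue ResidueField)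

namespace Fermat.Agent.H29K

open Fermat.Agent.H02
open Fermat.Agent.H18J
open Fermat.Agent.Q (intL mem_intL redL redL_coeff redL_eq_zero_iff C_mem_intL redL_C)
open Fermat.Agent.Igusa (IsExp scl lin coe_scl coe_lin twist twist_coeff zr)
open Fermat.Agent.H18 (exists_unit_zr exists_exp_aff theta theta_qExpand theta_jqModC)
open ModularCurve (coeffMap qExpand jqModC coeffMap_qExpand)

variable {K : Type*} [Field K] [Algebra K ℂ] {A : ValuationSubring K} {N : ℕ} [NeZero N]

section Emb

variable (A N) in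
/-- `intB` in the function field. -/
def jB : intB A N →+* MF K N := (algebraMap (bigAlg K N) (MF K N)).comp (intB A N).subtype

theorem jB_apply (b : intB A N) : jB A N b = algebraMap (bigAlg K N) (MF K N) b := rfl

theorem jB_injective : Function.Injective (jB A N) :=
  (IsFractionRing.injective (bigAlg K N) (MF K N)).comp Subtype.val_injective

theorem rho_jB (γ : SL(2, ℤ)) (b : intB A N) : rho K N γ (jB A N b) = jB A N (γ • b) := by
  rw [jB_apply, rho_algebraMap]
  rfl

theorem expM_jB (b : intB A N) : expM K N (jB A N b) = expK K N (b : bigAlg K N) := by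
  rw [jB_apply, expM_algebraMap]

end Emb

variable [IsAlgClosed K] {Γ : Subgroup SL(2, ℤ)} [IsLevel N Γ]

variable (A N Γ) in
/-- functions for `Γ` coming from `intB` -/
def SB : Subring (FK K Γ) := (jB A N).range.comap (embF K N Γ).toRingHom

theorem mem_SB {x : FK K Γ} : x ∈ SB A N Γ ↔ ∃ b : intB A N, jB A N b = embF K N Γ x := Iff.rfl

variable (A N Γ) in
/-- the corresponding function -/
def toB : SB A N Γ →+* intB A N :=
  ((RingEquiv.ofBijective (jB A N).rangeRestrict
    ⟨fun a b h => jB_injective (congrArg Subtype.val h),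
      (jB A N).rangeRestrict_surjective⟩).symm.toRingHom).comp
    (((embF K N Γ).toRingHom.comp (SB A N Γ).subtype).codRestrict (jB A N).range fun x => x.2)

theorem jB_toB (x : SB A N Γ) : jB A N (toB A N Γ x) = embF K N Γ x := by
  have h1 := (RingEquiv.ofBijective (jB A N).rangeRestrict
    ⟨fun a b h => jB_injective (congrArg Subtype.val h),
      (jB A N).rangeRestrict_surjective⟩).apply_symm_apply
    ((((embF K N Γ).toRingHom.comp (SB A N Γ).subtype).codRestrict (jB A N).range fun x => x.2) x)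
  exact congrArg Subtype.val h1

theorem toB_eq {x : SB A N Γ} {b : intB A N} (h : jB A N b = embF K N Γ x) : toB A N Γ x = b :=
  jB_injective (by rw [jB_toB, h])

theorem smul_toB {γ : SL(2, ℤ)} (hγ : γ ∈ Γ) (x : SB A N Γ) : γ • toB A N Γ x = toB A N Γ x := by
  apply jB_injective
  rw [← rho_jB, jB_toB, rho_embF_of_mem hγ]

theorem exists_toB {b : intB A N} (hb : ∀ γ ∈ Γ, γ • b = b) : ∃ x : SB A N Γ, toB A N Γ x = b := by
  obtain ⟨x, hx⟩ := exists_embF_eq (Γ := Γ) (jB A N b) fun γ hγ => by rw [rho_jB, hb γ hγ]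
  exact ⟨⟨x, b, hx.symm⟩, toB_eq hx.symm⟩

theorem qExpand_coe (x : SB A N Γ) :
    qExpand K N ((x : FK K Γ) : LaurentSeries K) = expK K N (toB A N Γ x : bigAlg K N) := by
  rw [← expM_embF, ← jB_toB, expM_jB]

theorem coe_mem_intL (x : SB A N Γ) : ((x : FK K Γ) : LaurentSeries K) ∈ intL A := by
  rw [← qExpand_mem_intL_iff N, qExpand_coe]
  exact exp_memB _

variable (A N Γ) in
/-- the reduction of the `q`-expansion -/
def rhoS : SB A N Γ →+* LaurentSeries (ResidueField A) :=
  (redL A).comp (((FK K Γ).val.toRingHom.comp (SB A N Γ).subtype).codRestrict (intL A)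
    coe_mem_intL)

theorem rhoS_apply (x : SB A N Γ) : rhoS A N Γ x = redL A ⟨_, coe_mem_intL x⟩ := rfl

theorem qExpand_rhoS (x : SB A N Γ) :
    qExpand (ResidueField A) N (rhoS A N Γ x) = thB A N (toB A N Γ x) := by
  rw [rhoS_apply, thB_apply, ← redL_qExpand N (coe_mem_intL x)
    ((qExpand_mem_intL_iff N).mpr (coe_mem_intL x))]
  congr 1
  exact Subtype.ext (qExpand_coe x)

theorem rhoS_eq_zero {x : SB A N Γ} : rhoS A N Γ x = 0 ↔ thB A N (toB A N Γ x) = 0 := by
  rw [← qExpand_rhoS, map_eq_zero_iff _ (ModularCurve.qExpand_injective N)]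

theorem exists_exp_jd {d : ℕ} (hd : d ∣ N) (γ : SL(2, ℤ)) :
    expK K N (γ • (⟨jN d, jN_mem_bigAlg hd⟩ : bigAlg K N)) ∈ intL A := by
  have hd0 : 0 < d := Nat.pos_of_dvd_of_pos hd (NeZero.pos N)
  obtain ⟨m, hm⟩ := hd
  have hm0 : 0 < m := Nat.pos_of_ne_zero fun h => NeZero.ne N (by rw [hm, h, mul_zero])
  obtain ⟨a, e, b, ha, he, hae, h1, -⟩ := jN_smul hd0 γ⁻¹
  have : NeZero a := ⟨ha.ne'⟩
  have : NeZero e := ⟨he.ne'⟩
  have : NeZero (a * m) := ⟨(Nat.mul_pos ha hm0).ne'⟩
  obtain ⟨F, hF, hF2⟩ := exists_exp_aff (K := K) (a := a) (e := e) (n := a * m) b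
  have hN : e * (a * m) = N := by rw [← mul_assoc, mul_comm e a, hae, hm]
  have h4 : IsExp N (γ • (⟨jN d, jN_mem_bigAlg ⟨m, hm⟩⟩ : bigAlg K N) : bigAlg K N)
      (theta K F) := by
    change IsExp N (tr γ⁻¹ (jN d)) (theta K F)
    rw [h1, ← hN]
    exact hF
  rw [expK_eq h4, hF2, qExpand_mem_intL_iff, qExpand_mem_intL_iff]
  have hu1 : (((exists_unit_zr (K := K) e).choose ^ b : Kˣ) : K) ^ e = 1 := by
    apply (algebraMap K ℂ).injective
    rw [← Units.val_pow_eq_pow_val, ← zpow_natCast, ← zpow_mul, mul_comm b, zpow_mul, zpow_natCast,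
      Units.val_zpow_eq_zpow_val, Units.val_pow_eq_pow_val, map_zpow₀, map_pow,
      (exists_unit_zr (K := K) e).choose_spec, (Igusa.zr_isPrimitiveRoot e).pow_eq_one, one_zpow,
      map_one]
  have hu2 : ((((exists_unit_zr (K := K) e).choose ^ b)⁻¹ : Kˣ) : K) ^ e = 1 := by
    rw [Units.val_inv_eq_inv_val, inv_pow, hu1, inv_one]
  exact twist_mem_intL (mem_of_pow_eq_one he hu1) (mem_of_pow_eq_one he hu2) jqModC_mem_intL

variable (A N) in
/-- `j_d` -/
def jdB {d : ℕ} (hd : d ∣ N) : intB A N := ⟨⟨jN d, jN_mem_bigAlg hd⟩, exists_exp_jd hd⟩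

theorem jd_mem_SB {d : ℕ} [NeZero d] (hd : d ∣ N) :
    (⟨qExpand K d (jqModC K), mem_FK_of_mem (jqd_mem_ringS (Gamma0_le_of_dvd hd))⟩ :
      FK K (Gamma0 N)) ∈ SB A N (Gamma0 N) := by
  rw [mem_SB]
  refine ⟨jdB A N hd, ?_⟩
  apply (expM K N).injective
  change expM K N _ = expM K N _
  rw [expM_jB, expM_embF]
  apply expK_eq
  rw [theta_qExpand, theta_qExpand, theta_jqModC]
  exact (Igusa.isExp_qExpand_iff N).mpr H18.isExp_jN

theorem const_mem_SB (c : A) : algebraMap K (FK K Γ) c ∈ SB A N Γ := by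
  rw [mem_SB]
  refine ⟨cB A N c, ?_⟩
  rw [jB_apply, coe_cB, AlgHom.commutes, ← IsScalarTower.algebraMap_apply]

theorem jK_mem_SB : jK K Γ ∈ SB A N Γ := by
  rw [mem_SB]
  exact ⟨jBB A N, by rw [jB_apply, coe_jBB, embF_jK]; rfl⟩

instance algSB : Algebra A (SB A N Γ) :=
  (((algebraMap K (FK K Γ)).comp A.subtype).codRestrict (SB A N Γ) const_mem_SB).toAlgebra

theorem coe_algSB (a : A) : ((algebraMap A (SB A N Γ) a : SB A N Γ) : FK K Γ) =
    algebraMap K _ (a : K) := rfl

variable (A N Γ) in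
/-- `j` -/
def jS : SB A N Γ := ⟨jK K Γ, jK_mem_SB⟩

theorem toB_alg (a : A) : toB A N Γ (algebraMap A (SB A N Γ) a) = cB A N a := by
  apply toB_eq
  rw [coe_algSB, jB_apply, coe_cB, AlgHom.commutes, ← IsScalarTower.algebraMap_apply]

theorem toB_jS : toB A N Γ (jS A N Γ) = jBB A N := by
  apply toB_eq
  change _ = embF K N Γ (jK K Γ)
  rw [jB_apply, coe_jBB, embF_jK]
  rfl

theorem toB_aeval (P : A[X]) : toB A N Γ (Polynomial.aeval (jS A N Γ) P) = evJ A N P := by
  have h : (toB A N Γ).comp (Polynomial.aeval (jS A N Γ) : A[X] →ₐ[A] SB A N Γ).toRingHom =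
      evJ A N := by
    apply Polynomial.ringHom_ext
    · intro a
      rw [RingHom.comp_apply, evJ_C]
      change toB A N Γ (Polynomial.aeval (jS A N Γ) (Polynomial.C a)) = _
      rw [Polynomial.aeval_C, toB_alg]
    · rw [RingHom.comp_apply, evJ_X]
      change toB A N Γ (Polynomial.aeval (jS A N Γ) Polynomial.X) = _
      rw [Polynomial.aeval_X, toB_jS]
  exact congrArg (fun f => f P) h

theorem rhoS_alg (a : A) : rhoS A N Γ (algebraMap A (SB A N Γ) a) =
    algebraMap (ResidueField A) _ (residue A a) := by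
  apply ModularCurve.qExpand_injective N
  rw [qExpand_rhoS, toB_alg, thB_cB]
  exact (qExpand_algebraMap' _ N _).symm

theorem rhoS_jS : rhoS A N Γ (jS A N Γ) = jqModC (ResidueField A) := by
  rw [rhoS_apply, ← redL_jqModC]
  rfl

end Fermat.Agent.H29K
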