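import Fermat.Agent.H29K.Uniq

/-!
# Scaling of functions holomorphic on `ℍ`
-/

set_option autoImplicit false
set_option linter.all false
set_option maxHeartbeats 400000

noncomputable section

open UpperHalfPlane hiding I
open ModularForm EisensteinSeries Filter Complex Topology Function CongruenceSubgroup
open scoped MatrixGroups Manifold Real Polynomial IntermediateField
open IsLocalRing (residue ResidueField residue_eq_zero_iff mem_maximalIdeal residue_surjective)

namespace Fermat.Agent.H29K

open Fermat.Agent.H02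
open Fermat.Agent.H18J
open Fermat.Agent.Q (intL mem_intL redL redL_coeff redL_eq_zero_iff C_mem_intL redL_C)

section Poly

open Polynomial

theorem scaleRoots_prod {R : Type*} [CommRing R] [IsDomain R] {ι : Type*} (s : Finset ι)
    (a : ι → R) (c : R) :
    (∏ i ∈ s, (X - C (c * a i))) = (∏ i ∈ s, (X - C (a i))).scaleRoots c := by
  classical
  induction s using Finset.induction_on with
  | empty => simp
  | insert i s hi ih =>
    rw [Finset.prod_insert hi, Finset.prod_insert hi, ih, mul_scaleRoots_of_noZeroDivisors]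
    congr 1
    ext n
    rw [coeff_scaleRoots, natDegree_X_sub_C]
    rcases n with _ | _ | n
    · simp [mul_comm]
    · simp
    · simp [coeff_X, coeff_C]

/-- coefficients of a product of `X - a` where the `a` reduce to zero -/
theorem coeff_prod_red {R S : Type*} [CommRing R] [CommRing S] (φ : R →+* S) {ι : Type*}
    (s : Finset ι) (a : ι → R) (ha : ∀ i ∈ s, φ (a i) = 0) {n : ℕ} (hn : n < s.card) :
    φ ((∏ i ∈ s, (X - C (a i))).coeff n) = 0 := by
  rw [← coeff_map, Polynomial.map_prod]
  have h : ∀ i ∈ s, (X - C (a i)).map φ = X := by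
    intro i hi
    rw [Polynomial.map_sub, map_X, map_C, ha i hi, C_0, sub_zero]
  rw [Finset.prod_congr rfl h, Finset.prod_const, coeff_X_pow, if_neg hn.ne]

end Poly

variable {K : Type*} [Field K] [Algebra K ℂ] [IsAlgClosed K] {A : ValuationSubring K}
  {N : ℕ} [NeZero N]

/-- contents of polynomials -/
theorem exists_content (P : K[X]) {m : ℕ} (hm : m ≠ 0) : ∃ (e : K) (R : A[X]),
    P = Polynomial.C (e ^ m) * R.map A.subtype ∧ (P ≠ 0 → e ≠ 0) ∧
      (e ≠ 0 → R.map (residue A) ≠ 0) := by
  by_cases hP : P = 0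
  · exact ⟨0, 0, by rw [hP]; simp, fun h => absurd hP h, fun h => absurd rfl h⟩
  · obtain ⟨c, hc, R, hR, i, hR0⟩ := H29.exists_scale_poly (residue A) (fun _ : Unit => P) ⟨(), hP⟩
    obtain ⟨e, he⟩ := IsAlgClosed.exists_pow_nat_eq c (Nat.pos_of_ne_zero hm)
    refine ⟨e, R (), by rw [he]; exact hR (), fun _ => ?_, fun _ => hR0⟩
    rintro rfl
    rw [zero_pow hm] at he
    exact hc he.symm

variable [MulArchimedean A.ValueGroup]

/-- **Scaling**, provided the kernel of the reduction is stable. -/
theorem exists_scaleB (hU : ∀ (b : intB A N) (γ : SL(2, ℤ)), thB A N b = 0 → thB A N (γ • b) = 0)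
    (y : bigAlg K N) (hy : y ≠ 0) : ∃ (c : K) (b : intB A N), c ≠ 0 ∧
      (b : bigAlg K N) = algebraMap K _ c * y ∧ thB A N b ≠ 0 := by
  classical
  haveI := Fintype.ofFinite (Gfin K N)
  set d := Fintype.card (Gfin K N) with hd
  have hd0 : 0 < d := Fintype.card_pos
  have hcharpoly : ∀ z : bigAlg K N, MulSemiringAction.charpoly (Gfin K N) z =
      ∏ g : Gfin K N, (Polynomial.X - Polynomial.C (g • z)) := fun z => rfl
  have hmonic : ∀ z : bigAlg K N, (MulSemiringAction.charpoly (Gfin K N) z).Monic := fun z =>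
    MulSemiringAction.monic_charpoly _ _
  have hdeg : ∀ z : bigAlg K N, (MulSemiringAction.charpoly (Gfin K N) z).natDegree = d := by
    intro z
    rw [hcharpoly, Polynomial.natDegree_prod_of_monic _ _ fun g _ => Polynomial.monic_X_sub_C _]
    simp [hd]
  have hQ : ∀ i : ℕ, ∃ Q : K[X], (MulSemiringAction.charpoly (Gfin K N) y).coeff i =
      Polynomial.aeval (jF K N) Q := fun i =>
    exists_poly fun γ => by
      rw [← toGfin_smul]
      exact MulSemiringAction.smul_coeff_charpoly _ _ _
  choose Q hQ using hQ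
  have hQ0 : Q 0 ≠ 0 := by
    intro h0
    have h1 := hQ 0
    rw [h0, map_zero, hcharpoly, Polynomial.coeff_zero_eq_eval_zero, Polynomial.eval_prod,
      Finset.prod_eq_zero_iff] at h1
    obtain ⟨g, -, hg⟩ := h1
    rw [Polynomial.eval_sub, Polynomial.eval_X, Polynomial.eval_C, zero_sub, neg_eq_zero,
      smul_eq_zero_iff_eq] at hg
    exact hy hg
  choose e R hR hR1 hR0 using fun i : Fin d => exists_content (A := A) (Q i)
    (m := d - i) (by have := i.2; omega)
  obtain ⟨i₀, -, hmax⟩ := Finset.exists_max_image (Finset.univ : Finset (Fin d))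
    (fun i => A.valuation (e i)) ⟨⟨0, hd0⟩, Finset.mem_univ _⟩
  have he0 : e ⟨0, hd0⟩ ≠ 0 := hR1 ⟨0, hd0⟩ hQ0
  have he : e i₀ ≠ 0 := by
    intro h0
    have := hmax ⟨0, hd0⟩ (Finset.mem_univ _)
    rw [h0, map_zero, le_zero_iff, map_eq_zero] at this
    exact he0 this
  have hmem : ∀ i, e i / e i₀ ∈ A := by
    intro i
    rw [← A.valuation_le_one_iff, map_div₀]
    exact div_le_one_of_le₀ (hmax i (Finset.mem_univ _)) zero_le
  have hRi₀ := hR0 i₀ he
  set c := (e i₀)⁻¹ with hc
  have hc0 : c ≠ 0 := inv_ne_zero he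
  set y' : bigAlg K N := algebraMap K _ c * y with hy'
  have hcoef : ∀ i : Fin d, (MulSemiringAction.charpoly (Gfin K N) y').coeff i =
      ((evJ A N (Polynomial.C (⟨e i / e i₀, hmem i⟩ ^ (d - (i : ℕ))) * R i) : intB A N) :
        bigAlg K N) := by
    intro i
    have h1 : MulSemiringAction.charpoly (Gfin K N) y' =
        (MulSemiringAction.charpoly (Gfin K N) y).scaleRoots (algebraMap K _ c) := by
      rw [hcharpoly, hcharpoly, ← scaleRoots_prod]
      refine Finset.prod_congr rfl fun g _ => ?_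
      rw [hy', smul_mul']
      congr 3
      exact smul_algebraMap g c
    rw [h1, Polynomial.coeff_scaleRoots, hdeg, hQ, hR, coe_evJ, Polynomial.map_mul,
      Polynomial.map_C, map_mul, map_mul, Polynomial.aeval_C, Polynomial.aeval_C, mul_right_comm,
      ← map_pow, ← map_mul]
    congr 2
    rw [hc, map_pow]
    change e i ^ _ * _ = (e i / e i₀) ^ _
    rw [← mul_pow, div_eq_mul_inv]
  have hmemy : y' ∈ intB A N := by
    let p : A[X][X] := Polynomial.X ^ d + ∑ i : Fin d, Polynomial.C
      (Polynomial.C (⟨e i / e i₀, hmem i⟩ ^ (d - (i : ℕ))) * R i) * Polynomial.X ^ (i : ℕ)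
    have hp : p.Monic := by
      apply Polynomial.monic_X_pow_add
      refine lt_of_le_of_lt (Polynomial.degree_sum_le _ _) ?_
      rw [Finset.sup_lt_iff (by exact_mod_cast WithBot.bot_lt_coe d)]
      intro i _
      refine lt_of_le_of_lt (Polynomial.degree_C_mul_X_pow_le _ _) ?_
      exact_mod_cast i.2
    apply mem_intB_of_integral hp
    have h1 := MulSemiringAction.eval_charpoly (Gfin K N) y'
    rw [Polynomial.eval_eq_sum_range, hdeg, Finset.sum_range_succ, ← Fin.sum_univ_eq_sum_range
      (fun i => (MulSemiringAction.charpoly (Gfin K N) y').coeff i * y' ^ i)] at h1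
    have h2 := (hmonic y').coeff_natDegree
    rw [hdeg] at h2
    rw [h2, one_mul] at h1
    rw [Polynomial.eval₂_add, Polynomial.eval₂_X_pow, Polynomial.eval₂_finset_sum, add_comm, ← h1]
    congr 1
    refine Finset.sum_congr rfl fun i _ => ?_
    rw [Polynomial.eval₂_mul, Polynomial.eval₂_C, Polynomial.eval₂_X_pow, hcoef]
    rfl
  refine ⟨c, ⟨y', hmemy⟩, hc0, rfl, fun h0 => ?_⟩
  -- all conjugates reduce to zero
  have hconj : ∀ g : Gfin K N, ∃ h : expK K N (g • y') ∈ intL A, redL A ⟨_, h⟩ = 0 := by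
    intro g
    obtain ⟨γ, rfl⟩ := toGfin_surjective g
    have h1 := hU _ γ h0
    exact ⟨exp_memB (γ • (⟨y', hmemy⟩ : intB A N)), h1⟩
  choose h1 h2 using hconj
  have h3 := coeff_prod_red (redL A) (Finset.univ : Finset (Gfin K N))
    (fun g => ⟨expK K N (g • y'), h1 g⟩) (fun g _ => h2 g) (n := (i₀ : ℕ))
    (by rw [Finset.card_univ]; exact i₀.2)
  have h4 : (((∏ g : Gfin K N, (Polynomial.X - Polynomial.C
      (⟨expK K N (g • y'), h1 g⟩ : intL A))).coeff (i₀ : ℕ) : intL A) : LaurentSeries K) =
      expK K N ((MulSemiringAction.charpoly (Gfin K N) y').coeff i₀) := by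
    have h5 : ((∏ g : Gfin K N, (Polynomial.X - Polynomial.C
      (⟨expK K N (g • y'), h1 g⟩ : intL A))).map (intL A).subtype) =
        (MulSemiringAction.charpoly (Gfin K N) y').map (expK K N : bigAlg K N →+* LaurentSeries K) := by
      rw [hcharpoly, Polynomial.map_prod, Polynomial.map_prod]
      refine Finset.prod_congr rfl fun g _ => ?_
      rw [Polynomial.map_sub, Polynomial.map_X, Polynomial.map_C, Polynomial.map_sub,
        Polynomial.map_X, Polynomial.map_C]
      rfl
    have h6 := congrArg (fun p => p.coeff (i₀ : ℕ)) h5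
    simp only [Polynomial.coeff_map] at h6
    exact h6
  have h7 : thB A N (evJ A N (Polynomial.C (⟨e i₀ / e i₀, hmem i₀⟩ ^ (d - (i₀ : ℕ))) * R i₀)) =
      0 := by
    rw [thB_apply, ← h3]
    congr 1
    apply Subtype.ext
    rw [h4, hcoef]
  rw [thB_evJ_eq_zero] at h7
  have h8 : (⟨e i₀ / e i₀, hmem i₀⟩ : A) = 1 := Subtype.ext (div_self he)
  rw [h8, one_pow, Polynomial.C_1, one_mul] at h7
  exact hRi₀ h7

/-- A function holomorphic on `ℍ` with integral expansion at one cusp has integral expansions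
at all cusps. -/
theorem mem_intB_of_exp
    (hU : ∀ (b : intB A N) (γ : SL(2, ℤ)), thB A N b = 0 → thB A N (γ • b) = 0)
    (y : bigAlg K N) (hy : expK K N y ∈ intL A) : y ∈ intB A N := by
  by_cases hy0 : y = 0
  · rw [hy0]; exact zero_mem _
  obtain ⟨c, b, hc, hb, hb0⟩ := exists_scaleB hU y hy0
  have h1 : y = algebraMap K (bigAlg K N) c⁻¹ * b := by
    rw [hb, ← mul_assoc, ← map_mul, inv_mul_cancel₀ hc, map_one, one_mul]
  have hcA : c⁻¹ ∈ A := by
    apply mem_of_C_mul_mem (exp_memB b)
    · exact hb0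
    · have h2 := hy
      rwa [h1, map_mul, AlgHom.commutes, Q.algebraMap_eq_C] at h2
  rw [h1]
  exact mul_mem (cB A N ⟨_, hcA⟩).2 b.2

end Fermat.Agent.H29K
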