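import Fermat.Agent.H18J.Frac
import Fermat.Agent.H18J.PlaceDeg
import Fermat.Agent.Q.Residue

/-!
# The stabiliser of the kernel of reduction on functions of level `Γ(N)`
-/

set_option autoImplicit false
set_option linter.all false
set_option maxHeartbeats 400000

noncomputable section

open UpperHalfPlane hiding I
open ModularForm EisensteinSeries Filter Complex Topology Function CongruenceSubgroup
open scoped MatrixGroups Manifold Real Polynomial IntermediateField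
open IsLocalRing (residue ResidueField)

namespace Fermat.Agent.H29K

open Fermat.Agent.H02
open Fermat.Agent.H18J
open Fermat.Agent.Q (intL mem_intL redL redL_coeff redL_eq_zero_iff C_mem_intL redL_C)
open Fermat.Agent.Igusa (IsExp scl lin coe_scl coe_lin twist twist_coeff zr)
open ModularCurve (coeffMap qExpand jqModC coeffMap_qExpand)

variable {K : Type*} [Field K] [Algebra K ℂ] {A : ValuationSubring K} {N : ℕ} [NeZero N]

theorem coeff_T_pow (f : bigAlg K N) (n : ℤ) :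
    ((expK K N (ModularGroup.T • f)).coeff n) ^ N = ((expK K N f).coeff n) ^ N := by
  have h1 := isExp_expK f
  have h2 : IsExp N ((ModularGroup.T • f : bigAlg K N) : ℍ → ℂ)
      (twist (zr N ^ (-1 : ℤ)) (Fermat.Agent.H18.theta K (expK K N f))) := by
    intro τ
    have h3 := h1 (ModularGroup.T⁻¹ • τ)
    have h4 : Function.Periodic.qParam (N : ℝ) ((ModularGroup.T⁻¹ • τ : ℍ) : ℂ) =
        ((zr N ^ (-1 : ℤ) : ℂˣ) : ℂ) * Function.Periodic.qParam (N : ℝ) (τ : ℂ) := by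
      have h5 : ((ModularGroup.T⁻¹ • τ : ℍ) : ℂ) = τ + (-1 : ℤ) := by
        rw [← zpow_neg_one, UpperHalfPlane.modular_T_zpow_smul]
        simp [add_comm]
      have h6 : (N : ℂ) ≠ 0 := by exact_mod_cast NeZero.ne N
      rw [h5, Function.Periodic.qParam, Function.Periodic.qParam, Units.val_zpow_eq_zpow_val, zr,
        Units.val_mk0, ← Complex.exp_int_mul, ← Complex.exp_add]
      congr 1
      push_cast
      ring
    simp only [h4, mul_zpow] at h3
    have h7 : ((ModularGroup.T • f : bigAlg K N) : ℍ → ℂ) τ =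
        (f : ℍ → ℂ) (ModularGroup.T⁻¹ • τ) := rfl
    have h8 : (fun n : ℤ => (twist (zr N ^ (-1 : ℤ))
        (Fermat.Agent.H18.theta K (expK K N f))).coeff n *
        Function.Periodic.qParam (N : ℝ) (τ : ℂ) ^ n) = fun n : ℤ =>
        (Fermat.Agent.H18.theta K (expK K N f)).coeff n * (((zr N ^ (-1 : ℤ) : ℂˣ) : ℂ) ^ n *
          Function.Periodic.qParam (N : ℝ) (τ : ℂ) ^ n) := by
      funext n
      rw [Igusa.twist_coeff, Units.val_zpow_eq_zpow_val (zr N ^ (-1 : ℤ)) n]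
      ring
    rw [h7, h8]
    exact h3
  have h3 := (isExp_expK (ModularGroup.T • f)).unique (NeZero.pos N) h2
  have h5 := congrArg (fun F => HahnSeries.coeff F n) h3
  simp only [Igusa.twist_coeff, ModularCurve.coeffMap_coeff] at h5
  apply (algebraMap K ℂ).injective
  have h6 : ((((zr N ^ (-1 : ℤ)) ^ n : ℂˣ) : ℂ)) ^ N = 1 := by
    have h7 : (zr N) ^ N = 1 := Igusa.zr_pow N
    have h8 : ((zr N ^ (-1 : ℤ)) ^ n) ^ N = 1 := by
      rw [← zpow_natCast, ← zpow_mul, ← zpow_mul]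
      rw [show (-1 : ℤ) * (n * (N : ℤ)) = (N : ℤ) * (-n) by ring, zpow_mul, zpow_natCast, h7,
        one_zpow]
    rw [← Units.val_pow_eq_pow_val, h8, Units.val_one]
  rw [map_pow, map_pow, h5, mul_pow, h6, mul_one]

theorem mem_nonunits_iff_pow {x y : K} {n : ℕ} (hn : n ≠ 0) (h : x ^ n = y ^ n) :
    x ∈ A.nonunits ↔ y ∈ A.nonunits := by
  rw [ValuationSubring.mem_nonunits_iff, ValuationSubring.mem_nonunits_iff,
    ← pow_lt_one_iff hn (x := A.valuation x), ← pow_lt_one_iff hn (x := A.valuation y),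
    ← map_pow, ← map_pow, h]

theorem thB_eq_zero_iff {b : intB A N} :
    thB A N b = 0 ↔ ∀ n, (expK K N (b : bigAlg K N)).coeff n ∈ A.nonunits :=
  redL_eq_zero_iff _

theorem thB_T {b : intB A N} : thB A N (ModularGroup.T • b) = 0 ↔ thB A N b = 0 := by
  rw [thB_eq_zero_iff, thB_eq_zero_iff]
  refine forall_congr' fun n => ?_
  exact mem_nonunits_iff_pow (NeZero.ne N) (coeff_T_pow (b : bigAlg K N) n)

theorem smul_of_mem_Gamma {γ : SL(2, ℤ)} (hγ : γ ∈ CongruenceSubgroup.Gamma N) (b : intB A N) :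
    γ • b = b :=
  Subtype.ext (Subtype.ext (tr_eq_self_of_mem b.1.2 (inv_mem hγ)))

variable (A N) in
/-- the stabiliser of the kernel of reduction -/
def Dq : Subgroup SL(2, ℤ) where
  carrier := {γ | ∀ b : intB A N, thB A N (γ • b) = 0 ↔ thB A N b = 0}
  mul_mem' {a b} ha hb c := by rw [mul_smul, ha, hb]
  one_mem' c := by rw [one_smul]
  inv_mem' {a} ha c := by
    have := ha (a⁻¹ • c)
    rw [smul_inv_smul] at this
    exact this.symm

theorem mem_Dq {γ : SL(2, ℤ)} :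
    γ ∈ Dq A N ↔ ∀ b : intB A N, thB A N (γ • b) = 0 ↔ thB A N b = 0 := Iff.rfl

theorem T_mem_Dq : ModularGroup.T ∈ Dq A N := fun b => thB_T

theorem Gamma_le_Dq : CongruenceSubgroup.Gamma N ≤ Dq A N := fun γ hγ b => by
  rw [smul_of_mem_Gamma hγ]

theorem mem_Dq_of_imp {γ : SL(2, ℤ)} (h : ∀ b : intB A N, thB A N b = 0 → thB A N (γ • b) = 0) :
    γ ∈ Dq A N := by
  have hpow : ∀ n : ℕ, ∀ b : intB A N, thB A N b = 0 → thB A N (γ ^ n • b) = 0 := by
    intro n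
    induction n with
    | zero => intro b hb; rwa [pow_zero, one_smul]
    | succ n ih => intro b hb; rw [pow_succ', mul_smul]; exact h _ (ih b hb)
  obtain ⟨n, hn, hn'⟩ := Subgroup.exists_pow_mem_of_index_ne_zero
    (H := CongruenceSubgroup.Gamma N) (Subgroup.FiniteIndex.index_ne_zero) γ
  rw [mem_Dq]
  intro b
  refine ⟨fun hb => ?_, h b⟩
  have h1 := hpow (n - 1) _ hb
  rw [← mul_smul, ← pow_succ, Nat.sub_add_cancel hn, smul_of_mem_Gamma hn'.2] at h1
  exact h1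

/-- conjugating `T` by an element of `Γ₀(N)` -/
theorem conj_T {h : SL(2, ℤ)} (hh : h ∈ Gamma0 N) :
    ∃ g ∈ CongruenceSubgroup.Gamma N, h * ModularGroup.T * h⁻¹ =
      g * ModularGroup.T ^ ((h 0 0) ^ 2 : ℤ) := by
  refine ⟨h * ModularGroup.T * h⁻¹ * (ModularGroup.T ^ ((h 0 0) ^ 2 : ℤ))⁻¹, ?_, by group⟩
  rw [← zpow_neg]
  have h10 := Gamma0_mem.mp hh
  have hT : ((ModularGroup.T : SL(2, ℤ)) : Matrix (Fin 2) (Fin 2) ℤ) = !![1, 1; 0, 1] := rfl
  have hTn := ModularGroup.coe_T_zpow (-(h 0 0) ^ 2 : ℤ)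
  have hM : ((h * ModularGroup.T * h⁻¹ * ModularGroup.T ^ (-(h 0 0) ^ 2 : ℤ) : SL(2, ℤ)) :
      Matrix (Fin 2) (Fin 2) ℤ) = (h : Matrix (Fin 2) (Fin 2) ℤ) * !![1, 1; 0, 1] *
        !![h 1 1, -h 0 1; -h 1 0, h 0 0] * !![1, -(h 0 0) ^ 2; 0, 1] := by
    rw [Matrix.SpecialLinearGroup.coe_mul, Matrix.SpecialLinearGroup.coe_mul,
      Matrix.SpecialLinearGroup.coe_mul, hT, hTn, Matrix.SpecialLinearGroup.coe_inv,
      Matrix.adjugate_fin_two]
  have hdet : h 0 0 * h 1 1 - h 0 1 * h 1 0 = 1 := by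
    have := h.2
    rwa [Matrix.det_fin_two] at this
  have hdet' : ((h 0 0 : ℤ) : ZMod N) * ((h 1 1 : ℤ) : ZMod N) = 1 := by
    have h2 := congrArg (fun n : ℤ => (n : ZMod N)) hdet
    push_cast at h2
    rw [h10, mul_zero, sub_zero] at h2
    exact h2
  have e00 : (h * ModularGroup.T * h⁻¹ * ModularGroup.T ^ (-(h 0 0) ^ 2 : ℤ) : SL(2, ℤ)) 0 0 =
      h 0 0 * h 1 1 - (h 0 0 + h 0 1) * h 1 0 := by
    rw [show ((h * ModularGroup.T * h⁻¹ * ModularGroup.T ^ (-(h 0 0) ^ 2 : ℤ) : SL(2, ℤ)) 0 0) =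
      ((h * ModularGroup.T * h⁻¹ * ModularGroup.T ^ (-(h 0 0) ^ 2 : ℤ) : SL(2, ℤ)) :
      Matrix (Fin 2) (Fin 2) ℤ) 0 0 from rfl, hM]
    simp [Matrix.mul_apply, Fin.sum_univ_two]
    try ring
  have e01 : (h * ModularGroup.T * h⁻¹ * ModularGroup.T ^ (-(h 0 0) ^ 2 : ℤ) : SL(2, ℤ)) 0 1 =
      -(h 0 0 * h 1 1 - (h 0 0 + h 0 1) * h 1 0) * (h 0 0) ^ 2 +
        (-(h 0 0 * h 0 1) + (h 0 0 + h 0 1) * h 0 0) := by
    rw [show ((h * ModularGroup.T * h⁻¹ * ModularGroup.T ^ (-(h 0 0) ^ 2 : ℤ) : SL(2, ℤ)) 0 1) =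
      ((h * ModularGroup.T * h⁻¹ * ModularGroup.T ^ (-(h 0 0) ^ 2 : ℤ) : SL(2, ℤ)) :
      Matrix (Fin 2) (Fin 2) ℤ) 0 1 from rfl, hM]
    simp [Matrix.mul_apply, Fin.sum_univ_two]
    try ring
  have e10 : (h * ModularGroup.T * h⁻¹ * ModularGroup.T ^ (-(h 0 0) ^ 2 : ℤ) : SL(2, ℤ)) 1 0 =
      h 1 0 * h 1 1 - (h 1 0 + h 1 1) * h 1 0 := by
    rw [show ((h * ModularGroup.T * h⁻¹ * ModularGroup.T ^ (-(h 0 0) ^ 2 : ℤ) : SL(2, ℤ)) 1 0) =
      ((h * ModularGroup.T * h⁻¹ * ModularGroup.T ^ (-(h 0 0) ^ 2 : ℤ) : SL(2, ℤ)) :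
      Matrix (Fin 2) (Fin 2) ℤ) 1 0 from rfl, hM]
    simp [Matrix.mul_apply, Fin.sum_univ_two]
    try ring
  have e11 : (h * ModularGroup.T * h⁻¹ * ModularGroup.T ^ (-(h 0 0) ^ 2 : ℤ) : SL(2, ℤ)) 1 1 =
      -(h 1 0 * h 1 1 - (h 1 0 + h 1 1) * h 1 0) * (h 0 0) ^ 2 +
        (-(h 1 0 * h 0 1) + (h 1 0 + h 1 1) * h 0 0) := by
    rw [show ((h * ModularGroup.T * h⁻¹ * ModularGroup.T ^ (-(h 0 0) ^ 2 : ℤ) : SL(2, ℤ)) 1 1) =
      ((h * ModularGroup.T * h⁻¹ * ModularGroup.T ^ (-(h 0 0) ^ 2 : ℤ) : SL(2, ℤ)) :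
      Matrix (Fin 2) (Fin 2) ℤ) 1 1 from rfl, hM]
    simp [Matrix.mul_apply, Fin.sum_univ_two]
    try ring
  rw [Gamma_mem, e00, e01, e10, e11]
  push_cast
  rw [h10]
  refine ⟨?_, ?_, ?_, ?_⟩
  · linear_combination hdet'
  · linear_combination -((h 0 0 : ℤ) : ZMod N) ^ 2 * hdet'
  · ring
  · linear_combination hdet'

/-- `T` and `S T S⁻¹` generate. -/
theorem eq_top_of_conj {D : Subgroup SL(2, ℤ)} (hT : ModularGroup.T ∈ D)
    (hS : ModularGroup.S * ModularGroup.T * ModularGroup.S⁻¹ ∈ D) : D = ⊤ := by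
  have h1 : ModularGroup.S = ModularGroup.T⁻¹ *
      (ModularGroup.S * ModularGroup.T * ModularGroup.S⁻¹)⁻¹ * ModularGroup.T⁻¹ := by
    have h3 : ModularGroup.S * (ModularGroup.T * ModularGroup.S * ModularGroup.T *
        ModularGroup.S * ModularGroup.T) = ModularGroup.S * ModularGroup.S := by
      have h4 := H18.ST_cube
      have h5 := H18.S_sq
      rw [sq] at h5
      rw [h5, ← h4]
      simp only [pow_succ, pow_zero, one_mul, mul_assoc]
    have h4 := mul_left_cancel h3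
    have h5 : ModularGroup.T⁻¹ * ModularGroup.S * ModularGroup.T⁻¹ =
        ModularGroup.S * ModularGroup.T * ModularGroup.S := by
      conv_lhs => rw [← h4]
      group
    calc ModularGroup.S = (ModularGroup.T⁻¹ * ModularGroup.S * ModularGroup.T⁻¹) *
          ModularGroup.S⁻¹ * ModularGroup.T⁻¹ := by rw [h5]; group
      _ = _ := by group
  have h2 : ModularGroup.S ∈ D := by
    rw [h1]
    exact mul_mem (mul_mem (inv_mem hT) (inv_mem hS)) (inv_mem hT)
  rw [eq_top_iff, ← SpecialLinearGroup.SL2Z_generators, Subgroup.closure_le]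
  rintro x (rfl | rfl)
  · exact h2
  · exact hT

/-- products of conjugates under a subgroup -/
theorem exists_prod (Γ : Subgroup SL(2, ℤ)) (b : intB A N) :
    ∃ c : intB A N, (∀ γ ∈ Γ, γ • c = c) ∧ (thB A N b = 0 → thB A N c = 0) ∧
      ∀ δ : SL(2, ℤ), thB A N (δ • c) = 0 → ∃ g : (GB A Γ : Subgroup (RingAut (intB A N))),
        thB A N (δ • ((g : RingAut (intB A N)) b)) = 0 := by
  classical
  haveI := Fintype.ofFinite (GB A Γ : Subgroup (RingAut (intB A N)))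
  refine ⟨∏ g : (GB A Γ : Subgroup (RingAut (intB A N))), (g : RingAut (intB A N)) b, ?_, ?_, ?_⟩
  · intro γ hγ
    let g₀ : (GB A Γ : Subgroup (RingAut (intB A N))) := ⟨autB A N γ, γ, hγ, rfl⟩
    rw [Finset.smul_prod']
    refine Fintype.prod_equiv (Equiv.mulLeft g₀) _ _ fun g => ?_
    rfl
  · intro hb
    rw [map_prod]
    refine Finset.prod_eq_zero (Finset.mem_univ 1) ?_
    exact hb
  · intro δ hδ
    rw [Finset.smul_prod', map_prod, Finset.prod_eq_zero_iff] at hδ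
    obtain ⟨g, -, hg⟩ := hδ
    exact ⟨g, hg⟩

/-- **The stabiliser is everything**, provided the kernel of the reduction on `Γ₀(N)`-invariants
is stable. -/
theorem Dq_eq_top (hU : ∀ b : intB A N, (∀ γ ∈ Gamma0 N, γ • b = b) → thB A N b = 0 →
    ∀ γ : SL(2, ℤ), thB A N (γ • b) = 0) : Dq A N = ⊤ := by
  classical
  haveI := Fintype.ofFinite (GB A (Gamma0 N) : Subgroup (RingAut (intB A N)))
  let f : (GB A (Gamma0 N) : Subgroup (RingAut (intB A N))) → Ideal (intB A N) := fun g =>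
    RingHom.ker ((thB A N).comp ((MulSemiringAction.toRingHom SL(2, ℤ) (intB A N)
      ModularGroup.S).comp (g : RingAut (intB A N)).toRingHom))
  have hsub : ((RingHom.ker (thB A N) : Ideal (intB A N)) : Set (intB A N)) ⊆
      ⋃ g ∈ (Finset.univ : Finset (GB A (Gamma0 N) : Subgroup (RingAut (intB A N)))),
        (f g : Set (intB A N)) := by
    intro b hb
    obtain ⟨c, hc, hbc, hc'⟩ := exists_prod (A := A) (Gamma0 N) b
    obtain ⟨g, hg⟩ := hc' ModularGroup.S (hU c hc (hbc hb) _)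
    simp only [Set.mem_iUnion]
    exact ⟨g, Finset.mem_univ _, hg⟩
  have hprime := (Ideal.subset_union_prime (s := Finset.univ) (f := f) 1 1
    (fun g _ _ _ => RingHom.ker_isPrime _)).mp hsub
  obtain ⟨⟨_, h, hh, rfl⟩, -, hle⟩ := hprime
  have hmem : ModularGroup.S * h ∈ Dq A N := mem_Dq_of_imp fun b hb => by
    rw [mul_smul]
    exact hle hb
  -- `S T S⁻¹` is in the stabiliser
  apply eq_top_of_conj T_mem_Dq
  obtain ⟨g, hg, hgT⟩ := conj_T (h := h⁻¹) (inv_mem hh)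
  have h1 : ModularGroup.S * ModularGroup.T * ModularGroup.S⁻¹ =
      (ModularGroup.S * h) * (h⁻¹ * ModularGroup.T * h⁻¹⁻¹) * (ModularGroup.S * h)⁻¹ := by group
  rw [h1, hgT]
  exact mul_mem (mul_mem hmem (mul_mem (Gamma_le_Dq hg) (zpow_mem T_mem_Dq _))) (inv_mem hmem)

end Fermat.Agent.H29K
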