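import Fermat.Agent.H29K.SB
import Fermat.Agent.H29K.Abs
import Fermat.Agent.H29.Bridge
import Fermat.Agent.H27.HauptEx

/-!
# The kernel of reduction is stable under `SL₂(ℤ)`
-/

set_option autoImplicit false
set_option linter.all false
set_option maxHeartbeats 400000

noncomputable section

open UpperHalfPlane hiding I
open ModularForm EisensteinSeries Filter Complex Topology Function CongruenceSubgroup
open scoped MatrixGroups Manifold Real Polynomial IntermediateField
open IsLocalRing (residue ResidueField residue_eq_zero_iff mem_maximalIdeal residue_surjective)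

namespace Fermat.Agent.H29K

open Fermat.Agent.H02
open Fermat.Agent.H18J
open Fermat.Agent.Q (intL mem_intL redL redL_coeff redL_eq_zero_iff C_mem_intL redL_C)
open Fermat.Agent.Igusa (IsExp scl lin coe_scl coe_lin twist twist_coeff zr)
open Fermat.Agent.H18 (exists_unit_zr exists_exp_aff theta theta_qExpand theta_jqModC)
open ModularCurve (coeffMap qExpand jqModC coeffMap_qExpand modularFunctionFieldFullC)


variable {K : Type*} [Field K] [Algebra K ℂ] [IsAlgClosed K] {A : ValuationSubring K}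
  {N : ℕ} [NeZero N]

theorem FK_Gamma0_eq [Algebra ℚ K] : FK K (Gamma0 N) = modularFunctionFieldFullC K N := by
  rw [FK_Gamma0, H05.laurentBaseChange_full]

theorem relfinrank_full (k : Type*) [Field k] {N : ℕ} [NeZero N] (hN : (N : k) ≠ 0) :
    (k⟮jqModC k⟯).relfinrank (modularFunctionFieldFullC k N) = ModularCurve.dedekindPsi N := by
  rw [← Igusa.full_one_eq]
  show Cardinal.toNat (IntermediateField.relrank _ _) = _
  rw [Igusa.relrank_full N hN, Cardinal.toNat_natCast]

variable [CharZero K] [Algebra ℚ K] [Algebra.IsAlgebraic ℚ K]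

section

variable {ℓ : ℕ} (hℓ : ℓ.Prime) (hA : A.LiesOverPrime ℓ) (hN : (N : ResidueField A) ≠ 0)

include hℓ hA hN in
theorem rhoS_mem_full (x : SB A N (Gamma0 N)) :
    rhoS A N (Gamma0 N) x ∈ modularFunctionFieldFullC (ResidueField A) N := by
  refine Q.red_mem_full hℓ hA hN (z := ((x : FK K (Gamma0 N)) : LaurentSeries K)) ?_
    (Q.Red.of_intL ⟨_, coe_mem_intL x⟩)
  rw [← FK_Gamma0_eq]
  exact x.1.2

/-- the reduction on functions for `Γ₀(N)` -/
def rho0 : SB A N (Gamma0 N) →+* modularFunctionFieldFullC (ResidueField A) N :=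
  (rhoS A N (Gamma0 N)).codRestrict (modularFunctionFieldFullC (ResidueField A) N).toSubring
    (rhoS_mem_full hℓ hA hN)

theorem coe_rho0 (x : SB A N (Gamma0 N)) :
    ((rho0 hℓ hA hN x : modularFunctionFieldFullC (ResidueField A) N) :
      LaurentSeries (ResidueField A)) = rhoS A N (Gamma0 N) x := rfl

theorem coe_rho0_jd {d : ℕ} [NeZero d] (hd : d ∣ N) :
    ((rho0 hℓ hA hN ⟨_, jd_mem_SB (K := K) hd⟩ : modularFunctionFieldFullC (ResidueField A) N) :
      LaurentSeries (ResidueField A)) = qExpand (ResidueField A) d (jqModC (ResidueField A)) := by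
  rw [coe_rho0, rhoS_apply, ← redL_jqModC (A := A), ← redL_qExpand d jqModC_mem_intL
    ((qExpand_mem_intL_iff d).mpr jqModC_mem_intL)]

theorem adjoin_rho0 : IntermediateField.adjoin (ResidueField A) (Set.range (rho0 hℓ hA hN)) = ⊤ := by
  refine adjoin_eq_top _ _ fun x hx => ?_
  obtain ⟨d, hd0, hd, rfl⟩ := hx
  exact ⟨⟨_, jd_mem_SB (K := K) hd⟩, Subtype.ext (coe_rho0_jd hℓ hA hN hd)⟩

theorem exists_isGauss0 : ∃ (n : ℕ) (r : Fin n → SB A N (Gamma0 N)),
    H29.IsGauss (A := A) (L := K) (F := FK K (Gamma0 N)) (k := ResidueField A)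
      (κ := modularFunctionFieldFullC (ResidueField A) N) (residue A) (rho0 hℓ hA hN)
      (jS A N (Gamma0 N)) r := by
  have hNK : (N : K) ≠ 0 := Nat.cast_ne_zero.mpr (NeZero.ne N)
  have hρj : ((rho0 hℓ hA hN (jS A N (Gamma0 N)) :
      modularFunctionFieldFullC (ResidueField A) N) : LaurentSeries (ResidueField A)) =
      jqModC (ResidueField A) := by rw [coe_rho0, rhoS_jS]
  refine ⟨ModularCurve.dedekindPsi N, H29.IsGauss.of_finrank (A := A) (L := K)
    (F := FK K (Gamma0 N)) (S := SB A N (Gamma0 N)) (k := ResidueField A)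
    (κ := modularFunctionFieldFullC (ResidueField A) N) (residue A) (rho0 hℓ hA hN)
    (jS A N (Gamma0 N)) (ModularCurve.dedekindPsi N) (Igusa.dedekindPsi_pos (NeZero.ne N))
    (fun a ha => (residue_eq_zero_iff a).mpr ((mem_maximalIdeal a).mpr ha))
    residue_surjective (fun a => rfl)
    (fun a => Subtype.ext (rhoS_alg a)) ?_ ?_ ?_ ?_⟩
  · apply H27.trans_coe
    rw [hρj]
    exact H05.transcendental_j (ResidueField A)
  · exact adjoin_rho0 hℓ hA hN
  · rw [H27.finrank_adjoin_eq, hρj]
    exact relfinrank_full _ hN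
  · rw [H27.finrank_adjoin_eq]
    have h1 := relfinrank_full K (N := N) hNK
    rw [← FK_Gamma0_eq] at h1
    exact h1

include hℓ hA hN in
/-- the kernel of the reduction on `Γ₀(N)`-invariants is stable -/
theorem thB_smul_of_Gamma0 (b : intB A N) (hb : ∀ γ ∈ Gamma0 N, γ • b = b)
    (h0 : thB A N b = 0) (γ : SL(2, ℤ)) : thB A N (γ • b) = 0 := by
  obtain ⟨n, r, hG⟩ := exists_isGauss0 (N := N) hℓ hA hN
  obtain ⟨x, rfl⟩ := exists_toB hb
  have hx0 : rho0 hℓ hA hN x = 0 := Subtype.ext (rhoS_eq_zero.mpr h0)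
  obtain ⟨D, P, hD, hrel, hP⟩ := exists_coeff_S hG x
  replace hP := hP hx0
  have h2 := congrArg (fun z => thB A N (γ • toB A N (Gamma0 N) z)) hrel
  simp only [map_mul, map_sum, toB_aeval, smul_mul', Finset.smul_sum, smul_evJ] at h2
  rw [Finset.sum_eq_zero (fun i _ => by
    rw [thB_evJ_eq_zero.mpr (hP i), zero_mul])] at h2
  exact (mul_eq_zero.mp h2).resolve_left (fun h3 => hD (thB_evJ_eq_zero.mp h3))

include hℓ hA hN in
/-- **The kernel of the reduction is stable under `SL₂(ℤ)`.** -/
theorem thB_smul_eq_zero (b : intB A N) (γ : SL(2, ℤ)) :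
    thB A N (γ • b) = 0 ↔ thB A N b = 0 := by
  have h1 : Dq A N = ⊤ := Dq_eq_top fun b hb h0 γ => thB_smul_of_Gamma0 hℓ hA hN b hb h0 γ
  have h2 : γ ∈ Dq A N := by rw [h1]; trivial
  exact h2 b

end

end Fermat.Agent.H29K
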